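/-
IHARA / W (helper4), part 1: **the top-level reduction of S43** (Ribet's level lowering for the
Frey curve at an odd prime `q ≠ p`) to

* S44 (level lowering at `p`, on main),
* `IhwMazur`  = (A)+(B): the `q`-old case and Mazur's principle (`q ≢ 1 mod p` or `Frob_q` not a
  scalar on `E[p]`),
* `IhwIhara`  = (C): the case where **every** odd prime of a minimal level is `≡ 1 mod p` with scalar
  Frobenius (Taylor's Ihara avoidance + Khare–Wintenberger).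

Everything here is wiring: take a level `M₀ ∣ N` minimal among the levels of `E[p]`; S44 removes `p`,
(A)+(B) remove the non-(C) primes, (C) gives the contradiction.
-/
import Mathlib
import Fermat.Prelude.Def_FLTPrelim_FreyPackage
import Fermat.Prelude.Def_FLTPrelim_GaloisRep
import Fermat.Prelude.Def_FLTPrelim_Modularity
import Fermat.Prelude.Def_FLTPrelim_ModularRep
import Fermat.Prelude.Def_FLTPrelim_Ramification
import Fermat.Prelude.Def_FreyPackage_IsConductorLevel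
import Fermat.Prelude.Def_EllipticCurve_FrobeniusTrace
import Fermat.Agent.S44

set_option autoImplicit false
set_option linter.unusedVariables false

open WeierstrassCurve WeierstrassCurve.Affine WeierstrassCurve.Affine.Point

namespace Fermat.Agent.Ihara

local notation "Qb" => AlgebraicClosure ℚ
local notation "GQ" => (AlgebraicClosure ℚ ≃ₐ[ℚ] AlgebraicClosure ℚ)

/-- every Frobenius element at `q` acts on `E[p]` as a scalar -/
def IhwFrobScalar (E : WeierstrassCurve ℚ) (p q : ℕ) : Prop :=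
  ∀ A : ValuationSubring Qb, A.LiesOverPrime q → ∀ φ : GQ, A.IsFrobeniusAt φ q →
    ∃ c : ℤ, ∀ x : Submodule.torsionBy ℤ (E.toAffine⁄Qb).Point p, φ • x = c • x

/-- `q` is a prime of type **(C)** for `E[p]`: `q ≡ 1 mod p`, `E[p]` is unramified at `q` and the
Frobenius elements at `q` act as scalars -/
structure IhwCPrime (P : FreyPackage) (q : ℕ) : Prop where
  prime : q.Prime
  ne_two : q ≠ 2
  ne_p : q ≠ P.p
  one_mod : P.p ∣ q - 1
  unram : P.GaloisRepUnramifiedAt q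
  scalar : IhwFrobScalar P.freyCurve P.p q

/-- **(A)+(B)**: the `q`-old case and Mazur's principle for the Frey curve at an odd prime `q ≠ p`
which is not of type (C) -/
def IhwMazur : Prop :=
  ∀ (P : FreyPackage) (W : WeierstrassCurve ℤ), W.IsIntegralModelOf P.freyCurve →
    GaloisRepIsIrreducible (K := Qb) ℚ P.freyCurve P.p →
    ∀ (M q : ℕ), 0 < M → Squarefree (M * q) → q.Prime → q ≠ 2 → q ≠ P.p → ¬ q ∣ M → ¬ P.p ∣ M →
      (∀ r : ℕ, r.Prime → r ∣ M * q → (r : ℤ) ∣ P.a * P.b * P.c) →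
      P.GaloisRepUnramifiedAt q →
      ¬ (P.p ∣ q - 1 ∧ IhwFrobScalar P.freyCurve P.p q) →
      W.IsResiduallyModularOfLevel P.p (M * q) → W.IsResiduallyModularOfLevel P.p M

/-- **(C)**: a minimal level of `E[p]` all of whose odd primes are of type (C) has no odd prime -/
def IhwIhara : Prop :=
  ∀ (P : FreyPackage) (N : ℕ), P.IsConductorLevel N → ¬ P.p ∣ N →
    GaloisRepIsIrreducible (K := Qb) ℚ P.freyCurve P.p →
    P.ModularRepOfLevel N →
    (∀ M : ℕ, M ∣ N → M ≠ N → ¬ P.ModularRepOfLevel M) →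
    (∀ r : ℕ, r.Prime → r ∣ N → r ≠ 2 → IhwCPrime P r) →
    ∀ q : ℕ, q.Prime → q ∣ N → q ≠ 2 → False

/-- a minimal element of a nonempty set of divisors -/
theorem ihw_exists_minimal (N : ℕ) (hN : 0 < N) (S : ℕ → Prop) (hS : S N) :
    ∃ M : ℕ, M ∣ N ∧ S M ∧ ∀ M' : ℕ, M' ∣ M → M' ≠ M → ¬ S M' := by
  classical
  have hex : ∃ M : ℕ, M ∣ N ∧ S M := ⟨N, dvd_rfl, hS⟩
  refine ⟨Nat.find hex, (Nat.find_spec hex).1, (Nat.find_spec hex).2, fun M' hM' hne hSM' => ?_⟩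
  have hM0 : 0 < Nat.find hex := Nat.pos_of_dvd_of_pos (Nat.find_spec hex).1 hN
  have hlt : M' < Nat.find hex := lt_of_le_of_ne (Nat.le_of_dvd hM0 hM') hne
  exact Nat.find_min hex hlt ⟨hM'.trans (Nat.find_spec hex).1, hSM'⟩

/-- **S43 from S44, (A)+(B) and (C)** -/
theorem ihw_main (hAB : IhwMazur) (hC : IhwIhara) (P : FreyPackage) {N q : ℕ}
    (hcond : P.IsConductorLevel N) (hq : q.Prime) (hq2 : q ≠ 2) (hqp : q ≠ P.p) (hqN : q ∣ N)
    (hirr : GaloisRepIsIrreducible (K := Qb) ℚ P.freyCurve P.p)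
    (hmod : P.ModularRepOfLevel N)
    (hunr : ∀ r : ℕ, r.Prime → r ≠ 2 → r ≠ P.p → P.GaloisRepUnramifiedAt r) :
    ∃ M : ℕ, M ∣ N ∧ ¬ q ∣ M ∧ P.ModularRepOfLevel M := by
  obtain ⟨M₀, hM₀N, hM₀, hmin⟩ := ihw_exists_minimal N hcond.pos P.ModularRepOfLevel hmod
  have hM₀pos : 0 < M₀ := Nat.pos_of_dvd_of_pos hM₀N hcond.pos
  have hcond₀ : P.IsConductorLevel M₀ := hcond.of_dvd hM₀N hM₀pos
  by_cases hqM₀ : q ∣ M₀
  swap
  · exact ⟨M₀, hM₀N, hqM₀, hM₀⟩
  exfalso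
  -- `p ∤ M₀` by S44
  have hpM₀ : ¬ P.p ∣ M₀ := by
    intro hp
    obtain ⟨M', hM'M₀, hpM', hM'⟩ := Fermat.Agent.S44.result P hcond₀ hp hirr hM₀
    refine hmin M' hM'M₀ ?_ hM'
    rintro rfl
    exact hpM' hp
  -- every odd prime of `M₀` is of type (C) by (A)+(B)
  have hCp : ∀ r : ℕ, r.Prime → r ∣ M₀ → r ≠ 2 → IhwCPrime P r := by
    intro r hr hrM₀ hr2
    have hrp : r ≠ P.p := by
      rintro rfl
      exact hpM₀ hrM₀
    have hur := hunr r hr hr2 hrp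
    by_contra hnC
    have hnC' : ¬ (P.p ∣ r - 1 ∧ IhwFrobScalar P.freyCurve P.p r) :=
      fun h => hnC ⟨hr, hr2, hrp, h.1, hur, h.2⟩
    obtain ⟨M₁, rfl⟩ : ∃ M₁, M₀ = M₁ * r := ⟨M₀ / r, (Nat.div_mul_cancel hrM₀).symm⟩
    have hM₁pos : 0 < M₁ := Nat.pos_of_mul_pos_right hM₀pos
    have hrM₁ : ¬ r ∣ M₁ := fun h =>
      hcond₀.sq_not_dvd hr (by rw [sq]; exact Nat.mul_dvd_mul h dvd_rfl)
    have hpM₁ : ¬ P.p ∣ M₁ := fun h => hpM₀ (h.trans (Dvd.intro _ rfl))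
    obtain ⟨f, W, 𝔪, hf, hWE, h𝔪, hp𝔪, hcong⟩ := hM₀
    have hres : W.IsResiduallyModularOfLevel P.p (M₁ * r) := ⟨f, 𝔪, hf, h𝔪, hp𝔪, hcong⟩
    obtain ⟨g, 𝔫, hg, h𝔫, hp𝔫, hcong'⟩ :=
      hAB P W hWE hirr M₁ r hM₁pos hcond₀.squarefree hr hr2 hrp hrM₁ hpM₁ hcond₀.support hur hnC'
        hres
    refine hmin M₁ (Dvd.intro _ rfl) ?_ ⟨g, W, 𝔫, hg, hWE, h𝔫, hp𝔫, hcong'⟩
    intro h
    have h1 : M₁ * 1 = M₁ * r := by rw [mul_one]; exact h
    exact hr.one_lt.ne' (Nat.eq_of_mul_eq_mul_left hM₁pos h1).symm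
  exact hC P M₀ hcond₀ hpM₀ hirr hM₀ hmin hCp q hq hqM₀ hq2

end Fermat.Agent.Ihara
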